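import Fermat.Agent.TateLocal.Assembly
import Fermat.Agent.AlgebraicHecke.Basic

/-!
# The Gamma factors of an algebraic character

The parameters at infinity of a character of type `(0, k)` are `0` and `- k`, so for an algebraic
character of weight `w` the factor at a complex place is `Γℂ (s - min (n σ) (n σ̄))`.
-/

set_option autoImplicit false
set_option linter.unusedSectionVars false
set_option linter.style.haveILetI false

noncomputable section

open NumberField NumberField.InfinitePlace NumberField.InfinitePlace.Completion IsDedekindDomain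
open FA.Ideles FA.IdeleClass FA.TateLocal
open FA.HeckeTorus (infChar phase)
open FA.AlgHecke (IsPure kOf)
open scoped Classical ComplexConjugate

namespace FA.AlgHeckeFE

universe u

variable {K : Type u} [Field K] [NumberField K]

theorem infVec_infSingle_snd (w : InfinitePlace K) (z : w.Completionˣ)
    (v : {v : InfinitePlace K // IsComplex v}) (hv : v.1 ≠ w) : (infVec (infSingle w z)).2 v = 1 := by
  show extensionEmbedding v.1 (infComp v.1 (infSingle w z)).val = 1
  rw [infComp_infSingle_of_ne hv, Units.val_one, map_one]

/-- The type at one complex place. -/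
theorem typeChar_zero_infSingle {k : {w : InfinitePlace K // IsComplex w} → ℤ}
    (w : {w : InfinitePlace K // IsComplex w}) (z : w.1.Completionˣ) :
    ((typeChar (0 : InfinitePlace K → ℝ) k (infSingle w.1 z) : ℂˣ) : ℂ) =
      (extensionEmbedding w.1 z.val / (‖z.val‖ : ℂ)) ^ k w := by
  rw [typeChar_val, infChar]
  simp only [phase, Pi.zero_apply, mul_zero, zero_mul, Finset.sum_const_zero, Complex.ofReal_zero,
    Complex.exp_zero, one_mul]
  rw [Finset.prod_eq_single w (fun v _ hv => by
    rw [infVec_infSingle_snd w.1 z v fun e => hv (Subtype.ext e), norm_one, Complex.ofReal_one,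
      div_one, one_zpow]) fun h => absurd (Finset.mem_univ w) h]
  show (extensionEmbedding w.1 (infComp w.1 (infSingle w.1 z)).val /
    (‖extensionEmbedding w.1 (infComp w.1 (infSingle w.1 z)).val‖ : ℂ)) ^ k w = _
  rw [infComp_infSingle_self, (isometry_extensionEmbedding w.1).norm_map_of_map_zero (map_zero _)]

theorem typeChar_zero_infSingle_real {k : {w : InfinitePlace K // IsComplex w} → ℤ}
    {w : InfinitePlace K} (hw : IsReal w) (z : w.Completionˣ) :
    typeChar (0 : InfinitePlace K → ℝ) k (infSingle w z) = 1 := by
  refine Units.ext ?_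
  rw [typeChar_val, infChar]
  simp only [phase, Pi.zero_apply, mul_zero, zero_mul, Finset.sum_const_zero, Complex.ofReal_zero,
    Complex.exp_zero, one_mul, Units.val_one]
  refine Finset.prod_eq_one fun v _ => ?_
  rw [infVec_infSingle_snd w z v fun e => not_isReal_iff_isComplex.2 (e ▸ v.2) hw, norm_one,
    Complex.ofReal_one, div_one, one_zpow]

theorem infSingle_mem_posInf {w : InfinitePlace K} {z : w.Completionˣ}
    (hz : ∀ hr : IsReal w, 0 < extensionEmbeddingOfIsReal hr z.val) : infSingle w z ∈ posInf K := by
  refine ⟨fun v => finComp_infSingle v w z, fun u hr => ?_⟩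
  rcases eq_or_ne u w with rfl | hu
  · rw [infComp_infSingle_self]
    exact hz hr
  · rw [infComp_infSingle_of_ne hu, Units.val_one, map_one]
    exact one_pos

/-- A multiple of the angle that is never `1` only for the multiple `0`. -/
theorem eq_zero_of_exp {a : ℝ} (h : ∀ x : ℝ, Complex.exp ((a * x : ℝ) * Complex.I) = 1) : a = 0 := by
  by_contra ha
  have h1 := h (Real.pi / a)
  rw [mul_div_cancel₀ _ ha, Complex.exp_pi_mul_I] at h1
  norm_num at h1

/-- **The parameters at infinity.** -/
theorem localType_of_hasType {χ : Idele K →* ℂˣ}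
    {k : {w : InfinitePlace K // IsComplex w} → ℤ} (hχ : HasType χ 0 k) {τ : InfinitePlace K → ℝ}
    {m : InfinitePlace K → ℤ} (hv : HasLocalType χ τ m) :
    τ = 0 ∧ ∀ w : {w : InfinitePlace K // IsComplex w}, m w.1 = -k w := by
  have key : ∀ (w : InfinitePlace K) (z : w.Completionˣ),
      (∀ hr : IsReal w, 0 < extensionEmbeddingOfIsReal hr z.val) →
      (Complex.exp ((((w.mult : ℝ) * τ w * Real.log ‖z.val‖ : ℝ) : ℂ) * Complex.I) *
        (extensionEmbedding w z.val / (‖z.val‖ : ℂ)) ^ m w) *
          ((typeChar (0 : InfinitePlace K → ℝ) k (infSingle w z) : ℂˣ) : ℂ) = 1 := fun w z hz => by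
    rw [← hv.value, ← Units.val_mul, hχ _ (infSingle_mem_posInf hz), Units.val_one]
  refine ⟨funext fun w => ?_, fun w => ?_⟩
  · by_cases hw : IsReal w
    · set E := ringEquivRealOfIsReal hw
      refine eq_zero_of_exp fun x => ?_
      set z : w.Completionˣ := Units.mk0 (E.symm (Real.exp x)) ((map_ne_zero _).2 (Real.exp_ne_zero x))
      have he : extensionEmbeddingOfIsReal hw z.val = Real.exp x := E.apply_symm_apply _
      have hn : ‖z.val‖ = Real.exp x := by
        rw [← (isometry_extensionEmbeddingOfIsReal hw).norm_map_of_map_zero (map_zero _), he,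
          Real.norm_of_nonneg (Real.exp_pos x).le]
      have h := key w z fun hr => he ▸ Real.exp_pos x
      rw [typeChar_zero_infSingle_real hw, Units.val_one, mul_one, ← extensionEmbeddingOfIsReal_apply hw,
        he, hn, Real.log_exp, div_self (Complex.ofReal_ne_zero.2 (Real.exp_ne_zero x)), one_zpow,
        mul_one, IsReal.mult_eq_one hw, Nat.cast_one, one_mul] at h
      exact h
    · have hwc : IsComplex w := not_isReal_iff_isComplex.1 hw
      set E := ringEquivComplexOfIsComplex hwc
      have h2 : (2 * τ w : ℝ) = 0 := by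
        refine eq_zero_of_exp fun x => ?_
        set z : w.Completionˣ := Units.mk0 (E.symm (Real.exp x : ℂ))
          ((map_ne_zero _).2 (Complex.ofReal_ne_zero.2 (Real.exp_ne_zero x)))
        have he : extensionEmbedding w z.val = (Real.exp x : ℂ) := E.apply_symm_apply _
        have hn : ‖z.val‖ = Real.exp x := by
          rw [← (isometry_extensionEmbedding w).norm_map_of_map_zero (map_zero _), he, Complex.norm_real,
            Real.norm_of_nonneg (Real.exp_pos x).le]
        have h := key w z fun hr => absurd hr hw
        rw [typeChar_zero_infSingle ⟨w, hwc⟩, he, hn, Real.log_exp,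
          div_self (Complex.ofReal_ne_zero.2 (Real.exp_ne_zero x)), one_zpow, one_zpow, mul_one, mul_one,
          IsComplex.mult_eq_two hwc, Nat.cast_ofNat] at h
        exact h
      exact (mul_eq_zero.1 h2).resolve_left two_ne_zero
  · set E := ringEquivComplexOfIsComplex w.2
    have h2 : ((m w.1 + k w : ℤ) : ℝ) = 0 := by
      refine eq_zero_of_exp fun x => ?_
      set z : w.1.Completionˣ := Units.mk0 (E.symm (Complex.exp ((x : ℂ) * Complex.I)))
        ((map_ne_zero _).2 (Complex.exp_ne_zero _))
      have he : extensionEmbedding w.1 z.val = Complex.exp ((x : ℂ) * Complex.I) := E.apply_symm_apply _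
      have hn : ‖z.val‖ = 1 := by
        rw [← (isometry_extensionEmbedding w.1).norm_map_of_map_zero (map_zero _), he,
          Complex.norm_exp_ofReal_mul_I]
      have h := key w.1 z fun hr => absurd hr (not_isReal_iff_isComplex.2 w.2)
      rw [typeChar_zero_infSingle w, he, hn, Real.log_one, mul_zero, Complex.ofReal_zero, zero_mul,
        Complex.exp_zero, one_mul, Complex.ofReal_one, div_one, ← zpow_add₀ (Complex.exp_ne_zero _),
        ← Complex.exp_int_mul] at h
      rw [← h]
      push_cast
      ring_nf
    have h3 : m w.1 + k w = 0 := by exact_mod_cast h2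
    omega

/-! ### The factor -/

/-- **The Gamma factor** of an algebraic character of type `n` and weight `w`, with the parities `e` at
the real places. -/
def gammaFactor (n : (K →+* ℂ) → ℤ) (e : {v : InfinitePlace K // IsReal v} → ℕ) (w : ℤ) (s : ℂ) : ℂ :=
  (∏ v : {v : InfinitePlace K // IsReal v}, Complex.Gammaℝ (s - (w : ℂ) / 2 + e v)) *
    ∏ v : {v : InfinitePlace K // IsComplex v}, Complex.Gammaℂ
      (s - (min (n v.1.embedding) (n (ComplexEmbedding.conjugate v.1.embedding)) : ℤ))

theorem infGamma_eq_gammaFactor {n : (K →+* ℂ) → ℤ} {w : ℤ} (hw : IsPure n w)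
    {m : InfinitePlace K → ℤ} (hm : ∀ v : {v : InfinitePlace K // IsComplex v}, m v.1 = -kOf n v)
    (s : ℂ) :
    infGamma (0 : InfinitePlace K → ℝ) m (s - (w : ℂ) / 2) =
      gammaFactor n (fun v => (m v.1).natAbs) w s := by
  simp only [infGamma, gammaFactor, Pi.zero_apply, Complex.ofReal_zero, zero_mul, add_zero]
  refine congrArg (_ * ·) (Finset.prod_congr rfl fun v _ => congrArg Complex.Gammaℂ ?_)
  have h1 := hw v.1.embedding
  have h2 : ((m v.1).natAbs : ℤ) =
      w - 2 * min (n v.1.embedding) (n (ComplexEmbedding.conjugate v.1.embedding)) := by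
    rw [hm, kOf]
    omega
  have h3 : ((m v.1).natAbs : ℂ) =
      (w : ℂ) - 2 * ((min (n v.1.embedding) (n (ComplexEmbedding.conjugate v.1.embedding)) : ℤ) : ℂ) := by
    rw [← Int.cast_natCast (R := ℂ) (m v.1).natAbs, h2]
    push_cast
    rfl
  rw [h3]
  ring

end FA.AlgHeckeFE

end
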