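import Fermat.Agent.TateLocal.Conductor
import Fermat.Agent.IdeleClass.GroessenExists

/-!
# The conductor of a Grössencharakter

An idele class character that comes from a Grössencharakter modulo `𝔪` is trivial on the local units
congruent to `1` to the exponent of `𝔪`, so its conductor divides `𝔪`, and it gives a Grössencharakter
modulo its conductor.
-/

set_option autoImplicit false
set_option linter.unusedSectionVars false
set_option linter.style.haveILetI false

noncomputable section

open NumberField NumberField.InfinitePlace NumberField.InfinitePlace.Completion IsDedekindDomain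
open WithZero
open FA.ArtinRec FA.Ideles FA.IdeleClass FA.TateLocal
open FA.Ext (primeIdeal intEmb)
open FA.HeckeTorus (infChar Balanced IsTorusChar infChar_ne_zero norm_intEmb_ne_zero)
open scoped nonZeroDivisors Classical

set_option maxHeartbeats 400000

namespace FA.AlgHeckeFE

universe u

variable {K : Type u} [Field K] [NumberField K]

/-- The ideal of a nonzero integer. -/
def spanI (x : 𝓞 K) (hx : x ≠ 0) : (Ideal (𝓞 K))⁰ :=
  ⟨Ideal.span {x}, mem_nonZeroDivisors_iff_ne_zero.mpr fun e => hx (Ideal.span_singleton_eq_bot.mp e)⟩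

/-- An integer without its infinite part and without the uniformisers outside `R`. -/
def unitPart (R : Set (HeightOneSpectrum (𝓞 K))) (x : 𝓞 K) (hx : x ≠ 0) : Idele K :=
  principal (intU x hx) / (primeIdele R (spanI x hx) * infPart (principal (intU x hx)))

theorem infComp_unitPart (R : Set (HeightOneSpectrum (𝓞 K))) {x : 𝓞 K} (hx : x ≠ 0)
    (w : InfinitePlace K) : infComp w (unitPart R x hx) = 1 := by
  rw [unitPart, map_div, map_mul, infComp_primeIdele, one_mul, infComp_infPart, div_self']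

theorem finComp_unitPart_of_mem {R : Set (HeightOneSpectrum (𝓞 K))} {x : 𝓞 K} (hx : x ≠ 0)
    {u : HeightOneSpectrum (𝓞 K)} (hu : u ∈ R) :
    finComp u (unitPart R x hx) = localEmb u (intU x hx) := by
  rw [unitPart, map_div, map_mul, finComp_primeIdele_of_mem _ hu, one_mul, finComp_infPart, div_one,
    finComp_principal]

theorem valued_unitPart_of_notMem {R : Set (HeightOneSpectrum (𝓞 K))} {x : 𝓞 K} (hx : x ≠ 0)
    {u : HeightOneSpectrum (𝓞 K)} (hu : u ∉ R) :
    Valued.v ((finComp u (unitPart R x hx) : (u.adicCompletion K)ˣ) : u.adicCompletion K) = 1 := by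
  rw [unitPart, map_div, map_mul, finComp_infPart, mul_one, Units.val_div_eq_div_val, map_div₀,
    valued_primeIdele _ hu, finComp_principal, localEmb_val, FA.QuadFormsNF.valued_algebraMap,
    valuation_eq_exp, ord_intU_eq_ordI u hx]
  exact div_self exp_ne_zero

/-- **The three parts cancel.** -/
theorem map_unitPart_mul {χ : Idele K →* ℂˣ} (h : IsIdeleChar χ)
    (R : Set (HeightOneSpectrum (𝓞 K))) {x : 𝓞 K} (hx : x ≠ 0) :
    χ (unitPart R x hx) * (χ (primeIdele R (spanI x hx)) *
      χ (infPart (principal (intU x hx)))) = 1 := by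
  rw [unitPart, map_div, h.principal_eq, map_mul, one_div, inv_mul_cancel]

/-- **The values at the ideles of the ideals.** -/
theorem map_primeIdele_of_val {χ : Idele K →* ℂˣ} {R : Set (HeightOneSpectrum (𝓞 K))}
    {g : Ideal (𝓞 K) →* ℂ}
    (hg : ∀ v ∉ R, ((χ (single v (localEmb v (unif v))) : ℂˣ) : ℂ) = g v.asIdeal)
    (I : (Ideal (𝓞 K))⁰) :
    (∀ v ∈ R, ordI v I.1 = 0) → ((χ (primeIdele R I) : ℂˣ) : ℂ) = g I.1 := by
  induction I using ideal_induction with
  | h1 => exact fun _ => by rw [map_one, map_one, Units.val_one, OneMemClass.coe_one, map_one]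
  | hmul v I ih =>
    intro hI
    have h1 : ∀ u ∈ R, u ≠ v ∧ ordI u I.1 = 0 := fun u hu => by
      have h2 := hI u hu
      rw [ordI_primeIdeal_mul, Nat.add_eq_zero_iff] at h2
      exact ⟨fun e => by simp [e] at h2, h2.2⟩
    have hv : v ∉ R := fun hv => (h1 v hv).1 rfl
    rw [primeIdele_prime_mul, if_neg hv, map_mul, Units.val_mul, hg v hv,
      ih fun u hu => (h1 u hu).2, Submonoid.coe_mul, map_mul]
    rfl

theorem map_infPart_of_type {χ : Idele K →* ℂˣ} {t : InfinitePlace K → ℝ}
    {k : {w : InfinitePlace K // IsComplex w} → ℤ} (hχ : HasType χ t k) {y : Idele K}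
    (hy : infPart y ∈ posInf K) : χ (infPart y) = (typeChar t k y)⁻¹ := by
  rw [← typeChar_infPart]
  exact eq_inv_of_mul_eq_one_left (hχ _ hy)

theorem infVec_intU {x : 𝓞 K} (hx : x ≠ 0) : infVec (principal (intU x hx)) = intEmb K x := by
  rw [infVec_principal]
  rfl

/-- An element congruent to one to the exponents of the modulus is a quotient of congruent integers
prime to it. -/
theorem exists_congr_quot_ord {𝔪 : Ideal (𝓞 K)} (h𝔪 : 𝔪 ≠ ⊥) {a : Kˣ}
    (ha : ∀ v : HeightOneSpectrum (𝓞 K), v.asIdeal ∣ 𝔪 → localEmb v a ∈ nearLocal v (ordI v 𝔪 - 1)) :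
    ∃ (x y : 𝓞 K) (hx : x ≠ 0) (hy : y ≠ 0), a = intU x hx / intU y hy ∧
      Ideal.span {y} ⊔ 𝔪 = ⊤ ∧ x - y ∈ 𝔪 := by
  have ha0 : ∀ v : HeightOneSpectrum (𝓞 K), v.asIdeal ∣ 𝔪 → ord v a = 0 := fun v hv => by
    have h := valued_eq_one_of_nearLocal v (ha v hv)
    rw [localEmb_val, FA.QuadFormsNF.valued_algebraMap, valuation_eq_exp, ← exp_zero, exp_inj,
      neg_eq_zero] at h
    exact h
  obtain ⟨D, hD0, hD⟩ := exists_ideal_ordI (fun v => (-ord v a).toNat)
    ((finite_ord_ne_zero a).subset fun v hv h0 => hv (by simp [h0]))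
  have hDcop : D ⊔ 𝔪 = ⊤ := coprime_iff_ordI.2 fun v hv => by rw [hD, ha0 v hv]; rfl
  obtain ⟨y, hy, hy0, hy1⟩ : ∃ y : 𝓞 K, y ∈ D ∧ y ≠ 0 ∧ y - 1 ∈ 𝔪 := by
    obtain ⟨d, hd, m, hm, hdm⟩ := Submodule.mem_sup.mp ((Ideal.eq_top_iff_one _).mp hDcop)
    rcases eq_or_ne d 0 with rfl | hd0
    · rw [zero_add] at hdm
      obtain ⟨y, hy, hy0⟩ := Submodule.exists_mem_ne_zero_of_ne_bot hD0
      exact ⟨y, hy, hy0, by rw [(Ideal.eq_top_iff_one 𝔪).2 (hdm ▸ hm)]; trivial⟩
    · exact ⟨d, hd, hd0, by
        rw [show d - 1 = -m by linear_combination hdm]; exact 𝔪.neg_mem hm⟩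
  obtain ⟨x, hx, hxy⟩ := exists_intU_of_ord_nonneg (x := a * intU y hy0) fun v => by
    rw [ord_mul, ord_intU_eq_ordI v hy0]
    obtain ⟨J, hJ⟩ := Ideal.dvd_iff_le.2 ((Ideal.span_singleton_le_iff_mem _).2 hy)
    have hJ0 : J ≠ ⊥ := fun e => hy0 (Ideal.span_singleton_eq_bot.mp (by rw [hJ, e, Ideal.mul_bot]))
    have h := ordI_mul v hD0 hJ0
    rw [← hJ, hD] at h
    have := (-ord v a).self_le_toNat
    omega
  refine ⟨x, y, hx, hy0, eq_div_iff_mul_eq'.2 hxy, ?_, ?_⟩
  · rw [FA.Hecke.span_sup_congr hy1, Ideal.span_singleton_one, top_sup_eq]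
  · by_cases hz : x - y = 0
    · rw [hz]; exact zero_mem _
    refine (Ideal.span_singleton_le_iff_mem _).1 (Ideal.le_of_dvd (dvd_of_ordI_le h𝔪
      (fun e => hz (Ideal.span_singleton_eq_bot.mp e)) fun v => ?_))
    by_cases hv : v.asIdeal ∣ 𝔪
    · have hK : (x : K) - y = ((a : K) - 1) * (y : K) := by
        rw [← intU_val x hx, ← hxy, Units.val_mul, intU_val]
        ring
      have h1 : v.valuation K ((x - y : 𝓞 K) : K) ≤ exp (-((ordI v 𝔪 - 1 + 1 : ℕ) : ℤ)) := by
        rw [show ((x - y : 𝓞 K) : K) = (x : K) - y by push_cast; ring, hK, map_mul]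
        refine (mul_le_mul' (FA.HasseCyclic.mem_nearOne.1 ((localEmb_mem_nearLocal v).1 (ha v hv)))
          (?_ : v.valuation K (y : K) ≤ 1)).trans (mul_one _).le
        exact v.valuation_le_one y
      rw [← intU_val (x - y) hz, valuation_eq_exp, exp_le_exp, ord_intU_eq_ordI v hz] at h1
      omega
    · rw [(ordI_eq_zero_iff v).2 hv]
      exact Nat.zero_le _

/-- **Trivial to the exponent of any modulus.** -/
theorem levelTriv_of_torus {χ : Idele K →* ℂˣ} (h : IsIdeleChar χ) {𝔪 : Ideal (𝓞 K)}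
    {t : InfinitePlace K → ℝ} {k : {w : InfinitePlace K // IsComplex w} → ℤ}
    {g : Ideal (𝓞 K) →* ℂ} (hχ : HasType χ t k) (hg : IsTorusChar 𝔪 t k g)
    (hval : ∀ v : HeightOneSpectrum (𝓞 K), ¬ v.asIdeal ∣ 𝔪 →
      v ∉ ramSet χ ∧ ((χ (single v (localEmb v (unif v))) : ℂˣ) : ℂ) = g v.asIdeal)
    (v : HeightOneSpectrum (𝓞 K)) : LevelTriv χ v (ordI v 𝔪) := by
  intro z hz hn
  by_cases hv : v.asIdeal ∣ 𝔪
  swap
  · by_contra hne
    exact (hval v hv).1 ⟨z, hz, hne⟩
  set R : Set (HeightOneSpectrum (𝓞 K)) := {v | v.asIdeal ∣ 𝔪}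
  have hR : R.Finite := Ideal.finite_factors hg.ne_bot
  have hram : ramSet χ ⊆ R := fun u hu => by_contra fun hu' => (hval u hu').1 hu
  obtain ⟨k₀, hk₀⟩ := exists_level_ramSet h
  have hlev : ∀ x ∈ levelSub R k₀, (∀ w, infComp w x = 1) → χ x = 1 := fun x hx =>
    hk₀ x (levelSub_anti hram le_rfl hx)
  set L := k₀ + hR.toFinset.sup fun u => ordI u 𝔪
  have hL : ∀ u : HeightOneSpectrum (𝓞 K), ordI u 𝔪 ≤ L := fun u => by
    by_cases hu : u ∈ R
    · exact le_trans (Finset.le_sup (f := fun u => ordI u 𝔪) (hR.mem_toFinset.2 hu)) le_add_self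
    · rw [(ordI_eq_zero_iff u).2 hu]
      exact Nat.zero_le _
  obtain ⟨c, hc⟩ := exists_near v z L
  obtain ⟨a, ha, hsgn⟩ := exists_approx hR.toFinset
    (fun u => if u = v then c else 1) (L + 1) fun _ => true
  have hav : localEmb v a / z ∈ nearLocal v L := by
    have h1 := ha v (hR.mem_toFinset.2 hv)
    simp only [if_true] at h1
    rw [← div_mul_div_cancel (localEmb v a) (localEmb v c) z, ← map_div]
    refine mul_mem ((localEmb_mem_nearLocal v).2 (FA.HasseCyclic.mem_nearOne.2 ?_)) hc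
    rwa [Units.val_div_eq_div_val]
  have hau : ∀ u ∈ R, u ≠ v → localEmb u a ∈ nearLocal u L := fun u hu huv => by
    have h1 := ha u (hR.mem_toFinset.2 hu)
    simp only [if_neg huv, Units.val_one, div_one] at h1
    exact (localEmb_mem_nearLocal u).2 (FA.HasseCyclic.mem_nearOne.2 h1)
  set n := ordI v 𝔪 with hn'
  have hn0 : 0 < n := Nat.pos_of_ne_zero fun e => (ordI_eq_zero_iff v).1 e hv
  have hapos : ∀ φ : K →+* ℝ, 0 < φ a := fun φ => (hsgn φ).2 rfl
  have hnear : ∀ u, u.asIdeal ∣ 𝔪 → localEmb u a ∈ nearLocal u (ordI u 𝔪 - 1) := fun u hu => by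
    rcases eq_or_ne u v with rfl | huv
    · rw [← div_mul_cancel (localEmb u a) z]
      refine mul_mem (nearLocal_anti u (by have := hL u; omega) hav) ((mem_nearLocal u).2 ?_)
      rw [← hn', show n - 1 + 1 = n by omega]
      exact hn
    · exact nearLocal_anti u (by have := hL u; omega) (hau u hu huv)
  have hkm : ∀ u, ordI u 𝔪 ≤ L + 1 := fun u => (hL u).trans (Nat.le_succ _)
  obtain ⟨x, y, hx, hy, hxy, hcy, hsub⟩ : ∃ (x y : 𝓞 K) (hx : x ≠ 0) (hy : y ≠ 0),
      a = intU x hx / intU y hy ∧ Ideal.span {y} ⊔ 𝔪 = ⊤ ∧ x - y ∈ 𝔪 := by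
    exact exists_congr_quot_ord hg.ne_bot hnear
  have hcx : Ideal.span {x} ⊔ 𝔪 = ⊤ := by rw [FA.Hecke.span_sup_congr hsub]; exact hcy
  have hs : ∀ φ : K →+* ℝ, 0 < φ x * φ y := fun φ => by
    have h2 := hapos φ
    rw [hxy, Units.val_div_eq_div_val, intU_val, intU_val, map_div₀] at h2
    rcases div_pos_iff.1 h2 with h3 | h3
    exacts [mul_pos h3.1 h3.2, mul_pos_of_neg_of_neg h3.1 h3.2]
  have hq := hg.div_eq_of_congr hx hy hsub hs
  have hinf : infPart (principal a) ∈ posInf K := infPart_mem_posInf fun w hr => by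
    rw [infComp_principal]
    exact lt_of_lt_of_eq (hapos (embedding_of_isReal hr))
      (extensionEmbeddingOfIsReal_coe hr ((WithAbs.equiv w.1).symm (a : K))).symm
  have hP : ∀ (r : 𝓞 K) (hr : r ≠ 0), Ideal.span {r} ⊔ 𝔪 = ⊤ →
      ((χ (primeIdele R (spanI r hr)) : ℂˣ) : ℂ) = g (Ideal.span {r}) := fun r hr hc =>
    map_primeIdele_of_val (fun u hu => (hval u hu).2) _ (coprime_iff_ordI.1 hc)
  have hI : χ (infPart (principal (intU x hx))) / χ (infPart (principal (intU y hy))) =
      (typeChar t k (principal a))⁻¹ := by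
    rw [← map_div, ← map_div, ← map_div, ← hxy, map_infPart_of_type hχ hinf]
  have hone : χ (unitPart R x hx) = χ (unitPart R y hy) := by
    have e1 := map_unitPart_mul h R hx
    have e2 := map_unitPart_mul h R hy
    have key : χ (primeIdele R (spanI x hx)) * χ (infPart (principal (intU x hx))) =
        χ (primeIdele R (spanI y hy)) * χ (infPart (principal (intU y hy))) := by
      refine Units.ext ?_
      rw [Units.val_mul, Units.val_mul, hP x hx hcx, hP y hy hcy, (div_eq_iff_eq_mul'.1 hI),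
        Units.val_mul, Units.val_inv_eq_inv_val, hxy, map_div, map_div, Units.val_div_eq_div_val,
        typeChar_val, typeChar_val, infVec_intU hx, infVec_intU hy, inv_div]
      rw [div_eq_div_iff (infChar_ne_zero (norm_intEmb_ne_zero hx))
        (infChar_ne_zero (norm_intEmb_ne_zero hy))] at hq
      have h0 := infChar_ne_zero (t := t) (k := k) (norm_intEmb_ne_zero hx)
      field_simp
      linear_combination hq
    rw [eq_inv_of_mul_eq_one_left e1, eq_inv_of_mul_eq_one_left e2, key]
  have hmem : unitPart R x hx / unitPart R y hy / single v z ∈ levelSub R k₀ := by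
    refine ⟨fun u hu => ?_, fun u hu => ?_, fun w hr => ?_⟩
    · rw [map_div, map_div, finComp_single_of_ne fun e : u = v => hu (e ▸ hv), div_one,
        Units.val_div_eq_div_val, map_div₀, valued_unitPart_of_notMem hx hu,
        valued_unitPart_of_notMem hy hu, div_one]
    · rw [map_div, map_div, finComp_unitPart_of_mem hx hu, finComp_unitPart_of_mem hy hu, ← map_div,
        ← hxy]
      rcases eq_or_ne u v with rfl | huv
      · rw [finComp_single_self]
        exact nearLocal_anti u le_self_add hav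
      · rw [finComp_single_of_ne huv, div_one]
        exact nearLocal_anti u le_self_add (hau u hu huv)
    · rw [map_div, map_div, infComp_unitPart, infComp_unitPart, infComp_single, div_one, div_one,
        Units.val_one, map_one]
      exact one_pos
  have h3 := hlev _ hmem fun w => by
    rw [map_div, map_div, infComp_unitPart, infComp_unitPart, infComp_single, div_one, div_one]
  rwa [map_div, map_div, hone, div_self', one_div, inv_eq_one] at h3

/-- **The conductor divides every modulus.** -/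
theorem condIdeal_dvd {χ : Idele K →* ℂˣ} (h : IsIdeleChar χ) {𝔪 : Ideal (𝓞 K)}
    {t : InfinitePlace K → ℝ} {k : {w : InfinitePlace K // IsComplex w} → ℤ}
    {g : Ideal (𝓞 K) →* ℂ} (hχ : HasType χ t k) (hg : IsTorusChar 𝔪 t k g)
    (hval : ∀ v : HeightOneSpectrum (𝓞 K), ¬ v.asIdeal ∣ 𝔪 →
      v ∉ ramSet χ ∧ ((χ (single v (localEmb v (unif v))) : ℂˣ) : ℂ) = g v.asIdeal) :
    condIdeal χ ∣ 𝔪 :=
  dvd_of_ordI_le (condIdeal_ne_bot χ) hg.ne_bot fun v => by
    rw [ordI_condIdeal h v]
    exact (condExp_le_iff h).2 (levelTriv_of_torus h hχ hg hval v)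

theorem dvd_condIdeal_iff {χ : Idele K →* ℂˣ} (h : IsIdeleChar χ) (v : HeightOneSpectrum (𝓞 K)) :
    v.asIdeal ∣ condIdeal χ ↔ v ∈ ramSet χ := by
  refine (not_iff_not.1 ?_)
  rw [← ordI_eq_zero_iff v, ordI_condIdeal h, condExp_eq_zero_iff h]

/-- **The Grössencharakter modulo the conductor.** -/
theorem exists_primitive {χ : Idele K →* ℂˣ} (h : IsIdeleChar χ) {t : InfinitePlace K → ℝ}
    {k : {w : InfinitePlace K // IsComplex w} → ℤ} (ht : Balanced t) (hχ : HasType χ t k) :
    ∃ g : Ideal (𝓞 K) →* ℂ, IsTorusChar (condIdeal χ) t k g ∧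
      ∀ v : HeightOneSpectrum (𝓞 K), g v.asIdeal = unifVal χ v := by
  obtain ⟨𝔪, g, hg, hdvd, hval⟩ := exists_isTorusChar_of_hasType h ht hχ
  set R := ramSet χ
  refine ⟨g, ⟨condIdeal_ne_bot χ, fun I hI => ?_, ht, fun x ⟨hx0, hx1, hpos⟩ => ?_⟩, fun v => hval v⟩
  · rw [hg.ne_zero_iff I hI, coprime_iff_ordI, coprime_iff_ordI]
    exact forall_congr' fun v => by rw [hdvd v, dvd_condIdeal_iff h]
  · have hcop : ∀ v ∈ R, ordI v (Ideal.span {x}) = 0 := fun v hv =>
      coprime_iff_ordI.1 (by rw [FA.Hecke.span_sup_congr hx1, Ideal.span_singleton_one, top_sup_eq])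
        v ((dvd_condIdeal_iff h v).2 hv)
    have hg' : ∀ v ∉ R, ((χ (single v (localEmb v (unif v))) : ℂˣ) : ℂ) = g v.asIdeal := fun v hv => by
      rw [hval v, if_neg hv]
    have hu : ∀ v, Valued.v ((finComp v (unitPart R x hx0) : (v.adicCompletion K)ˣ) :
        v.adicCompletion K) = 1 := fun v => by
      by_cases hv : v ∈ R
      · rw [finComp_unitPart_of_mem hx0 hv, localEmb_val, FA.QuadFormsNF.valued_algebraMap,
          valuation_eq_exp, ord_intU_eq_ordI v hx0, hcop v hv, Nat.cast_zero, neg_zero, exp_zero]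
      · exact valued_unitPart_of_notMem hx0 hv
    have h1 : χ (unitPart R x hx0) = 1 := by
      refine Units.ext ?_
      rw [map_of_units h hu, show infPart (unitPart R x hx0) = 1 from idele_ext
        (fun v => by rw [finComp_infPart, map_one])
        (fun w => by rw [infComp_infPart, infComp_unitPart, map_one]), map_one, Units.val_one, one_mul]
      refine Finset.prod_eq_one fun v hv => ?_
      have hvR : v ∈ R := (finite_ramSet h).mem_toFinset.1 hv
      rw [← finComp_val, locVal_unit χ (hu v), finComp_unitPart_of_mem hx0 hvR,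
        levelTriv_condExp h v (localEmb v (intU x hx0))
          (by rw [← finComp_unitPart_of_mem hx0 hvR]; exact hu v) ?_, Units.val_one]
      rw [localEmb_val, intU_val, ← map_one (algebraMap K (v.adicCompletion K)), ← map_sub,
        FA.QuadFormsNF.valued_algebraMap, show (x : K) - 1 = ((x - 1 : 𝓞 K) : K) by push_cast; ring,
        show v.valuation K ((x - 1 : 𝓞 K) : K) = v.intValuation (x - 1) from v.valuation_of_algebraMap _]
      refine (v.intValuation_le_pow_iff_mem _ _).2 (Ideal.le_of_dvd ?_ hx1)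
      refine dvd_of_ordI_le (pow_ne_zero _ v.ne_bot) (condIdeal_ne_bot χ) fun u => ?_
      rw [ordI_pow u v.ne_bot, ordI_prime]
      split_ifs with e
      · rw [e, ordI_condIdeal h, mul_one]
      · rw [mul_zero]
        exact Nat.zero_le _
    have h2 := map_unitPart_mul h R hx0
    rw [h1, one_mul, map_infPart_of_type hχ (infPart_principal_mem hx0 hpos), mul_inv_eq_one] at h2
    have h3 := congrArg Units.val h2
    rw [typeChar_val, infVec_intU hx0, map_primeIdele_of_val hg' _ hcop] at h3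
    exact h3

end FA.AlgHeckeFE

end
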