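import Fermat.Agent.AlgebraicHecke.LSeries

/-!
# The Euler product of an algebraic character

So two characters that agree outside finitely many primes have L-series that differ by the Euler
factors there.
-/

set_option autoImplicit false
set_option linter.unusedSectionVars false

noncomputable section

open NumberField IsDedekindDomain Ideal
open FA.Hecke (heckeL logF fPow lHom_apply)
open FA.HeckeTorus (Unimod)
open FA.IdeleClass (normTwist normTwist_apply)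
open FA.AlgHecke (IsAlgChar IsPure natCast_absNorm_ne_zero)
open scoped nonZeroDivisors Classical

namespace FA.AlgHeckeFE

variable {K : Type*} [Field K] [NumberField K]

/-- **The Euler product**, no factor being `0`. -/
theorem hasProd_unimod {g : Ideal (𝓞 K) →* ℂ} (hg : Unimod g) {s : ℂ} (hs : 1 < s.re) :
    HasProd (fun v : HeightOneSpectrum (𝓞 K) =>
      (1 - g v.asIdeal * ((absNorm v.asIdeal : ℕ) : ℂ) ^ (-s))⁻¹) (heckeL g s) ∧
    ∀ v : HeightOneSpectrum (𝓞 K),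
      1 - g v.asIdeal * ((absNorm v.asIdeal : ℕ) : ℂ) ^ (-s) ≠ 0 := by
  have hne : ∀ v : HeightOneSpectrum (𝓞 K),
      1 - g v.asIdeal * ((absNorm v.asIdeal : ℕ) : ℂ) ^ (-s) ≠ 0 := fun v =>
    Complex.slitPlane_ne_zero (FA.PrimeIdeal.one_sub_mem_slitPlane (hg.norm_fPow_le_half hs.le v))
  refine ⟨?_, hne⟩
  rw [← hg.exp_logF hs]
  have hp : HasProd _ (Complex.exp (logF g s)) := (hg.summable_logTerm hs).hasSum.cexp
  convert hp using 1
  funext v
  rw [Function.comp_apply, Complex.exp_neg]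
  exact congrArg Inv.inv (Complex.exp_log (hne v)).symm

variable {𝔪 : Ideal (𝓞 K)} {n : (K →+* ℂ) → ℤ} {f : Ideal (𝓞 K) →* ℂ} {w : ℤ}

/-- **The Euler product of an algebraic character.** -/
theorem hasProd_algChar (h : IsAlgChar 𝔪 n f) (hw : IsPure n w) {s : ℂ}
    (hs : 1 + (w : ℝ) / 2 < s.re) :
    ∃ L : ℂ, HasSum (fun I : (Ideal (𝓞 K))⁰ => f I.1 * ((absNorm I.1 : ℕ) : ℂ) ^ (-s)) L ∧
      HasProd (fun v : HeightOneSpectrum (𝓞 K) =>
        (1 - f v.asIdeal * ((absNorm v.asIdeal : ℕ) : ℂ) ^ (-s))⁻¹) L ∧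
      ∀ v : HeightOneSpectrum (𝓞 K),
        1 - f v.asIdeal * ((absNorm v.asIdeal : ℕ) : ℂ) ^ (-s) ≠ 0 := by
  have hs' : 1 < (s - (w : ℂ) / 2).re := by simp; linarith
  have e : ∀ v : HeightOneSpectrum (𝓞 K),
      normTwist f (-((w : ℂ) / 2)) v.asIdeal *
        ((absNorm v.asIdeal : ℕ) : ℂ) ^ (-(s - (w : ℂ) / 2)) =
      f v.asIdeal * ((absNorm v.asIdeal : ℕ) : ℂ) ^ (-s) := fun v => by
    rw [normTwist_apply, mul_assoc, ← Complex.cpow_add _ _ (natCast_absNorm_ne_zero v.ne_bot)]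
    ring_nf
  obtain ⟨h1, h2⟩ := hasProd_unimod (h.torus hw).unimod hs'
  simp only [e] at h1 h2
  exact ⟨_, h.hasSum hw hs, h1, h2⟩

/-- **Two characters that agree at almost all primes**, the first `0` at the others. -/
theorem hasSum_depleted {𝔣 : Ideal (𝓞 K)} {n₀ : (K →+* ℂ) → ℤ} {f₀ : Ideal (𝓞 K) →* ℂ} {w₀ : ℤ}
    (h : IsAlgChar 𝔪 n f) (hw : IsPure n w) (h₀ : IsAlgChar 𝔣 n₀ f₀) (hw₀ : IsPure n₀ w₀)
    (T : Finset (HeightOneSpectrum (𝓞 K))) (hT : ∀ v ∈ T, f v.asIdeal = 0)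
    (hout : ∀ v ∉ T, f v.asIdeal = f₀ v.asIdeal) {s : ℂ} (hs : 1 + (w : ℝ) / 2 < s.re)
    (hs₀ : 1 + (w₀ : ℝ) / 2 < s.re) {L₀ : ℂ}
    (hL : HasSum (fun I : (Ideal (𝓞 K))⁰ => f₀ I.1 * ((absNorm I.1 : ℕ) : ℂ) ^ (-s)) L₀) :
    HasSum (fun I : (Ideal (𝓞 K))⁰ => f I.1 * ((absNorm I.1 : ℕ) : ℂ) ^ (-s))
      ((∏ v ∈ T, (1 - f₀ v.asIdeal * ((absNorm v.asIdeal : ℕ) : ℂ) ^ (-s))) * L₀) := by
  obtain ⟨L, hs1, hp1, -⟩ := hasProd_algChar h hw hs
  obtain ⟨M, hs2, hp2, hne⟩ := hasProd_algChar h₀ hw₀ hs₀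
  obtain rfl := hs2.unique hL
  set c : HeightOneSpectrum (𝓞 K) → ℂ := fun v => if v ∈ T then
    1 - f₀ v.asIdeal * ((absNorm v.asIdeal : ℕ) : ℂ) ^ (-s) else 1
  have hc : HasProd c (∏ v ∈ T, c v) := hasProd_prod_of_ne_finset_one fun v hv => if_neg hv
  have he : (fun v : HeightOneSpectrum (𝓞 K) =>
      (1 - f v.asIdeal * ((absNorm v.asIdeal : ℕ) : ℂ) ^ (-s))⁻¹) = fun v => c v *
        (1 - f₀ v.asIdeal * ((absNorm v.asIdeal : ℕ) : ℂ) ^ (-s))⁻¹ := funext fun v => by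
    simp only [c]
    split_ifs with hv
    · rw [hT v hv, zero_mul, sub_zero, inv_one, mul_inv_cancel₀ (hne v)]
    · rw [hout v hv, one_mul]
  rw [he] at hp1
  have := hp1.unique (hc.mul hp2)
  rw [this] at hs1
  convert hs1 using 2
  exact Finset.prod_congr rfl fun v hv => (if_pos hv).symm

end FA.AlgHeckeFE

end
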