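import Fermat.Agent.AlgebraicHeckeFE.Conductor
import Fermat.Agent.AlgebraicHeckeFE.Archimedean
import Fermat.Agent.AlgebraicHecke.LSeries

/-!
# Hecke's functional equation for algebraic characters

The primitive character `f₀` of an algebraic character has as modulus the conductor of its idele
class character, and its completed L-series is that of this character shifted by `w / 2`.
-/

set_option autoImplicit false
set_option linter.unusedSectionVars false
set_option linter.style.haveILetI false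

noncomputable section

open NumberField NumberField.InfinitePlace IsDedekindDomain Ideal
open FA.ArtinRec (unif)
open FA.Ideles FA.IdeleClass FA.TateLocal
open FA.Hecke (heckeL lHom_apply)
open FA.HeckeTorus (IsTorusChar balanced_zero Unimod)
open FA.AlgHecke (IsAlgChar IsPure IsNormPower kOf typeVal typeVal_eq exists_isPure natCast_absNorm_ne_zero)
open FA.Ext (primeIdeal)
open scoped nonZeroDivisors Classical ComplexConjugate

set_option maxHeartbeats 800000

namespace FA.AlgHeckeFE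

universe u

variable {K : Type u} [Field K] [NumberField K]

theorem conj_ofReal_cpow {A : ℝ} (hA : 0 < A) (z : ℂ) :
    conj ((A : ℂ) ^ z) = (A : ℂ) ^ conj z := by
  rw [Complex.cpow_def_of_ne_zero (Complex.ofReal_ne_zero.2 hA.ne'),
    Complex.cpow_def_of_ne_zero (Complex.ofReal_ne_zero.2 hA.ne'), ← Complex.ofReal_log hA.le,
    ← Complex.exp_conj, map_mul, Complex.conj_ofReal]

theorem conj_natCast_cpow (N : ℕ) (z : ℂ) : conj ((N : ℂ) ^ z) = (N : ℂ) ^ conj z := by
  rw [Complex.cpow_conj _ _ (by simp [Real.pi_ne_zero.symm]), Complex.conj_natCast]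

theorem conj_Gammaℝ (z : ℂ) : conj (Complex.Gammaℝ z) = Complex.Gammaℝ (conj z) := by
  rw [Complex.Gammaℝ_def, Complex.Gammaℝ_def, map_mul, ← Complex.Gamma_conj, map_div₀,
    conj_ofReal_cpow Real.pi_pos, map_div₀, map_neg, map_ofNat]

theorem conj_Gammaℂ (z : ℂ) : conj (Complex.Gammaℂ z) = Complex.Gammaℂ (conj z) := by
  rw [Complex.Gammaℂ_def, Complex.Gammaℂ_def, map_mul, map_mul, ← Complex.Gamma_conj, map_ofNat,
    show (2 : ℂ) * (Real.pi : ℂ) = ((2 * Real.pi : ℝ) : ℂ) by push_cast; ring,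
    conj_ofReal_cpow Real.two_pi_pos, map_neg]

/-- The L-series is the series of the Grössencharakter. -/
theorem lSeries_eq_heckeL {χ : Idele K →* ℂˣ} {g : Ideal (𝓞 K) →* ℂ} (hg : Unimod g)
    (hgv : ∀ v : HeightOneSpectrum (𝓞 K), g v.asIdeal = unifVal χ v) {s : ℂ} (hs : 1 < s.re) :
    lSeries χ s = heckeL g s := by
  rw [lSeries, (hasProd_lFactor (S := 0) hg (fun v => by simp [hgv v]) hs).tprod_eq]
  simp

theorem unifVal_inv {χ : Idele K →* ℂˣ} (h : IsIdeleChar χ) (v : HeightOneSpectrum (𝓞 K)) :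
    unifVal χ⁻¹ v = conj (unifVal χ v) := by
  rw [unifVal, unifVal, ramSet_inv]
  split_ifs with hv
  · exact (map_zero _).symm
  · rw [MonoidHom.inv_apply, Units.val_inv_eq_inv_val, ← Complex.inv_eq_conj (h.norm_eq _)]

/-- **The dual completed series is the conjugate one.** -/
theorem completedL_inv {χ : Idele K →* ℂˣ} (h : IsIdeleChar χ) {𝔪 : Ideal (𝓞 K)}
    {t : InfinitePlace K → ℝ} {k : {w : InfinitePlace K // IsComplex w} → ℤ}
    {g : Ideal (𝓞 K) →* ℂ} (hg : IsTorusChar 𝔪 t k g)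
    (hgv : ∀ v : HeightOneSpectrum (𝓞 K), g v.asIdeal = unifVal χ v) (m : InfinitePlace K → ℤ)
    {s : ℂ} (hs : 1 < s.re) :
    completedL χ⁻¹ (-0) (-m) s = conj (completedL χ 0 m (conj s)) := by
  have hs' : 1 < (conj s).re := by rwa [Complex.conj_re]
  have hL : lSeries χ⁻¹ s = conj (lSeries χ (conj s)) := by
    rw [lSeries_eq_heckeL hg.conj.unimod (fun v => by
      rw [unifVal_inv h, MonoidHom.comp_apply, hgv v]; rfl) hs, lSeries_eq_heckeL hg.unimod hgv hs',
      heckeL, heckeL, Complex.conj_tsum]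
    refine tsum_congr fun I => ?_
    rw [lHom_apply, lHom_apply, map_mul]
    show conj (g I.1) * ((absNorm I.1 : ℕ) : ℂ) ^ (-s) =
      conj (g I.1) * conj (((absNorm I.1 : ℕ) : ℂ) ^ (-conj s))
    rw [conj_natCast_cpow, map_neg, Complex.conj_conj]
  have hG : infGamma (-0 : InfinitePlace K → ℝ) (-m) s = conj (infGamma 0 m (conj s)) := by
    simp only [infGamma, map_mul, map_prod, conj_Gammaℝ, conj_Gammaℂ, map_add, map_div₀,
      Complex.conj_conj, map_natCast, neg_zero, Pi.zero_apply,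
      Complex.ofReal_zero, zero_mul, map_ofNat, map_zero, Pi.neg_apply, Int.natAbs_neg]
  rw [completedL, completedL, analyticCond_inv, hL, hG, map_mul, map_mul,
    conj_ofReal_cpow (analyticCond_pos χ), map_div₀, Complex.conj_conj, map_ofNat]

/-- The twist of a Grössencharakter of type `(0, k)` back to the algebraic type. -/
theorem isAlgChar_normTwist {𝔣 : Ideal (𝓞 K)} {n : (K →+* ℂ) → ℤ} {w : ℤ} (hw : IsPure n w)
    {g : Ideal (𝓞 K) →* ℂ} (hg : IsTorusChar 𝔣 0 (kOf n) g) :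
    IsAlgChar 𝔣 n (normTwist g ((w : ℂ) / 2)) := by
  refine ⟨hg.ne_bot, fun I hI => ?_, fun x hx => ?_⟩
  · rw [normTwist_apply, mul_ne_zero_iff, and_iff_left (Complex.cpow_ne_zero_iff.2
      (Or.inl (natCast_absNorm_ne_zero hI)))]
    exact hg.ne_zero_iff I hI
  · rw [normTwist_apply, hg.ray x hx, typeVal_eq hw hx.1 hx.2.2]

/-- **Hecke's theorem for algebraic characters.** -/
theorem exists_functional_equation {𝔪 : Ideal (𝓞 K)} {n : (K →+* ℂ) → ℤ}
    {f : Ideal (𝓞 K) →* ℂ} (h : IsAlgChar 𝔪 n f) (hne : ¬IsNormPower f) :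
    ∃ (w : ℤ) (𝔣 : Ideal (𝓞 K)) (f₀ : Ideal (𝓞 K) →* ℂ)
      (e : {v : InfinitePlace K // IsReal v} → ℕ) (W : ℂ) (Λ : ℂ → ℂ),
      IsPure n w ∧ 𝔣 ∣ 𝔪 ∧ IsAlgChar 𝔣 n f₀ ∧
      (∀ I : Ideal (𝓞 K), I ≠ ⊥ → f I ≠ 0 → f₀ I = f I) ∧
      (∀ (𝔪' : Ideal (𝓞 K)) (f' : Ideal (𝓞 K) →* ℂ), IsAlgChar 𝔪' n f' →
        {v : HeightOneSpectrum (𝓞 K) | f' v.asIdeal ≠ f₀ v.asIdeal}.Finite → 𝔣 ∣ 𝔪') ∧
      (∀ v, e v ≤ 1) ∧ ‖W‖ = 1 ∧ Differentiable ℂ Λ ∧
      (∀ s : ℂ, 1 + (w : ℝ) / 2 < s.re → ∃ L : ℂ,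
        HasSum (fun I : (Ideal (𝓞 K))⁰ => f₀ I.1 * ((absNorm I.1 : ℕ) : ℂ) ^ (-s)) L ∧
        Λ s = ((|((discr K : ℤ) : ℝ)| * ((absNorm 𝔣 : ℕ) : ℝ) : ℝ) : ℂ) ^ (s / 2) *
          gammaFactor n e w s * L) ∧
      ∀ s : ℂ, Λ s = W * conj (Λ (1 + (w : ℂ) - conj s)) := by
  obtain ⟨w, hw⟩ := exists_isPure h.ne_bot h.unitTrivial
  obtain ⟨χ, hχ, htype, hval⟩ := exists_ideleChar_of_isTorusChar (h.torus hw)
  obtain ⟨g, hg, hgv⟩ := exists_primitive hχ balanced_zero htype
  set f₀ := normTwist g ((w : ℂ) / 2)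
  have hf₀ : IsAlgChar (condIdeal χ) n f₀ := isAlgChar_normTwist hw hg
  have hvalv : ∀ v : HeightOneSpectrum (𝓞 K), ¬ v.asIdeal ∣ 𝔪 → f₀ v.asIdeal = f v.asIdeal :=
    fun v hv => by
      rw [normTwist_apply, hgv v, unifVal, if_neg (hval v hv).1, (hval v hv).2, normTwist_apply,
        mul_assoc, ← Complex.cpow_add _ _ (natCast_absNorm_ne_zero v.ne_bot), neg_add_cancel,
        Complex.cpow_zero, mul_one]
  have hagree : ∀ I : Ideal (𝓞 K), I ≠ ⊥ → f I ≠ 0 → f₀ I = f I := by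
    suffices hI : ∀ I : (Ideal (𝓞 K))⁰, f I.1 ≠ 0 → f₀ I.1 = f I.1 from
      fun I hI0 => hI ⟨I, mem_nonZeroDivisors_iff_ne_zero.mpr hI0⟩
    intro I
    induction I using ideal_induction with
    | h1 => exact fun _ => by rw [OneMemClass.coe_one, map_one, map_one]
    | hmul v I ih =>
      intro h0
      rw [Submonoid.coe_mul, map_mul] at h0 ⊢
      rw [map_mul, ih (right_ne_zero_of_mul h0)]
      refine congrArg (· * f I.1) (hvalv v fun hd => ?_)
      have := (h.ne_zero_iff _ v.ne_bot).1 (left_ne_zero_of_mul h0)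
      exact v.isPrime.ne_top (top_le_iff.1 (this ▸ sup_le le_rfl (Ideal.le_of_dvd hd)))
  have hne₀ : ¬IsNormPower f₀ := fun ⟨a, ha⟩ => hne ⟨a, fun I hI h0 => by
    rw [← hagree I hI h0]
    exact ha I hI (by rw [hagree I hI h0]; exact h0)⟩
  have hsum : ∀ s : ℂ, 1 + (w : ℝ) / 2 < s.re →
      HasSum (fun I : (Ideal (𝓞 K))⁰ => f₀ I.1 * ((absNorm I.1 : ℕ) : ℂ) ^ (-s))
        (lSeries χ (s - (w : ℂ) / 2)) := fun s hs => by
    have hs' : 1 < (s - (w : ℂ) / 2).re := by simp; linarith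
    rw [lSeries_eq_heckeL hg.unimod hgv hs']
    refine (hg.unimod.summable_lHom hs').of_norm.hasSum.congr_fun fun I => ?_
    rw [lHom_apply, normTwist_apply, mul_assoc]
    refine congrArg (g I.1 * ·) ?_
    show _ = ((absNorm I.1 : ℕ) : ℂ) ^ (-(s - (w : ℂ) / 2))
    rw [← Complex.cpow_add _ _ (natCast_absNorm_ne_zero (nonZeroDivisors.coe_ne_zero I))]
    ring_nf
  have hχne : ∀ S : ℝ, χ ≠ absChar K S := fun S hS => by
    obtain ⟨E, hE, hE', -⟩ := hf₀.exists_entire hw hne₀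
    refine not_entire_absChar (K := K) S ⟨fun s => E (s + (w : ℂ) / 2),
      hE.comp (differentiable_id.add_const _), fun s hs => ?_⟩
    have hs' : 1 + (w : ℝ) / 2 < (s + (w : ℂ) / 2).re := by simp; linarith
    have h2 := (hsum _ hs').unique (hE' _ hs')
    rw [add_sub_cancel_right] at h2
    rw [← hS, h2]
  obtain ⟨τ, m, hv⟩ := exists_hasLocalType hχ
  obtain ⟨hτ, hm⟩ := localType_of_hasType htype hv
  subst hτ
  obtain ⟨G, G', W, hG, hG', hW, hGs, hG's, hfe⟩ := TateLocal.exists_functional_equation hχ hv hχne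
  have hconj : G' = fun s => conj (G (conj s)) := by
    refine FA.PrimeIdeal.eq_of_eq_halfPlane hG'
      (fun s => by
        have h1 := (hG (conj s)).conj_conj
        rwa [Complex.conj_conj] at h1) fun s hs => ?_
    show G' s = conj (G (conj s))
    rw [hG's s hs, hGs _ (by rwa [Complex.conj_re]), completedL_inv hχ hg hgv m hs]
  set A := analyticCond χ with hA
  refine ⟨w, condIdeal χ, f₀, fun v => (m v.1).natAbs, W,
    fun s => (A : ℂ) ^ ((w : ℂ) / 4) * G (s - (w : ℂ) / 2), hw,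
    condIdeal_dvd hχ htype (h.torus hw) hval, hf₀, hagree, fun 𝔪' f' h' hfin => ?_,
    fun v => hv.small _ v.2, hW, (hG.comp (differentiable_id.sub_const _)).const_mul _,
    fun s hs => ⟨_, hsum s hs, ?_⟩, fun s => ?_⟩
  · obtain ⟨χ', hχ', htype', hval'⟩ := exists_ideleChar_of_isTorusChar (h'.torus hw)
    have he : χ' = χ := mul_inv_eq_one.1 <| eq_one_of_unif (hχ'.mul hχ.inv)
      (T := {v | v.asIdeal ∣ 𝔪} ∪ {v | v.asIdeal ∣ 𝔪'} ∪ {v | f' v.asIdeal ≠ f₀ v.asIdeal})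
      (((Ideal.finite_factors h.ne_bot).union (Ideal.finite_factors h'.ne_bot)).union hfin)
      fun v hv => by
        simp only [Set.mem_union, Set.mem_ofPred_eq, not_or, not_not] at hv
        refine Units.ext ?_
        rw [MonoidHom.mul_apply, MonoidHom.inv_apply, Units.val_mul, Units.val_inv_eq_inv_val,
          (hval v hv.1.1).2, (hval' v hv.1.2).2, normTwist_apply, normTwist_apply, hv.2,
          hvalv v hv.1.1, Units.val_one, mul_inv_cancel₀]
        rw [← normTwist_apply, ← (hval v hv.1.1).2]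
        exact Units.ne_zero _
    exact he ▸ condIdeal_dvd hχ' htype' (h'.torus hw) hval'
  · have hs' : 1 < (s - (w : ℂ) / 2).re := by simp; linarith
    show (A : ℂ) ^ ((w : ℂ) / 4) * G (s - (w : ℂ) / 2) = _
    rw [hGs _ hs', completedL, infGamma_eq_gammaFactor hw hm, ← hA,
      show |((discr K : ℤ) : ℝ)| * ((absNorm (condIdeal χ) : ℕ) : ℝ) = A from rfl, ← mul_assoc,
      ← mul_assoc, ← Complex.cpow_add _ _ (Complex.ofReal_ne_zero.2 (analyticCond_pos χ).ne')]
    simp only [hA]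
    ring_nf
  · show (A : ℂ) ^ ((w : ℂ) / 4) * G (s - (w : ℂ) / 2) =
      W * conj ((A : ℂ) ^ ((w : ℂ) / 4) * G (1 + (w : ℂ) - conj s - (w : ℂ) / 2))
    rw [hfe, hconj, map_mul, conj_ofReal_cpow (A := A) (analyticCond_pos χ)]
    beta_reduce
    rw [map_div₀, map_intCast, map_ofNat, map_sub, map_sub, map_one, map_div₀, map_intCast, map_ofNat]
    ring_nf

end FA.AlgHeckeFE

end
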